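/-
S48 / FDd, the dictionary: for a number field `E ⊆ ℚ̄` and almost all `p`, the number of primes of `E` of
norm `p` is the number of fixed points of any Frobenius element at `p` on `G_ℚ / Gal(ℚ̄/E)`.
(tasks S48/FDd-Emb, S48/FDd-Sep, S48/FDd-Fixed, S48/FDd-Norm, S48/FDd-Count.)
Elementary: no decomposition groups of `E`, no conjugacy of places, no ramification theory.
-/
import Fermat.Agent.S48.Defs
import Fermat.Agent.Lib.FrobDensity.Main
import Fermat.Agent.ES.D.Cyclo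

set_option autoImplicit false

namespace Fermat.Agent.S48.CH

open NumberField IsDedekindDomain
open scoped NumberField

variable (E : IntermediateField ℚ Qb)

/-- the restriction of `γ ∈ G_ℚ` to `E`. -/
noncomputable def resE (γ : GQ) : E →ₐ[ℚ] Qb := (γ : Qb →ₐ[ℚ] Qb).comp E.val

theorem resE_apply (γ : GQ) (x : E) : resE E γ x = γ (x : Qb) := rfl

/-- (task FDd-Emb) every embedding extends to an automorphism of `ℚ̄`
(`ℚ̄/ℚ` is normal/algebraically closed: `IsAlgClosed.lift`-type extension `Qb →ₐ[ℚ] Qb` of `ι` along `E.val`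
(`IntermediateField.exists_algHom_of_splits`/`AlgHom.liftNormal`, `E.val.liftNormal`..), which is bijective
because `Qb/ℚ` is algebraic: `Algebra.IsAlgebraic.algHom_bijective`, `AlgEquiv.ofBijective`;
`Fermat.Agent.ES.D.isAlgebraic_Qb`). -/
theorem resE_surjective : Function.Surjective (resE E) := by
  intro ι
  have halg : Algebra.IsAlgebraic ℚ Qb := Fermat.Agent.ES.D.isAlgebraic_Qb
  obtain ⟨f, hf⟩ := IntermediateField.exists_algHom_of_splits (F := ℚ) (E := Qb) (K := Qb) (L := E)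
      (fun s => ⟨(halg.isAlgebraic s).isIntegral, IsAlgClosed.splits _⟩) ι
  refine ⟨AlgEquiv.ofBijective f (Algebra.IsAlgebraic.algHom_bijective f), ?_⟩
  ext x
  exact DFunLike.congr_fun hf x

/-- (task FDd-Emb) `IntermediateField.mem_fixingSubgroup_iff`. -/
theorem resE_eq_iff (γ γ' : GQ) : resE E γ = resE E γ' ↔ γ⁻¹ * γ' ∈ E.fixingSubgroup := by
  rw [IntermediateField.mem_fixingSubgroup_iff]
  constructor
  · intro h x hx
    have h1 := DFunLike.congr_fun h (⟨x, hx⟩ : E)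
    rw [resE_apply, resE_apply] at h1
    change γ⁻¹ (γ' x) = x
    rw [← h1]
    exact γ.symm_apply_apply x
  · intro h
    ext x
    rw [resE_apply, resE_apply]
    have h1 := h (x : Qb) x.2
    change γ⁻¹ (γ' x) = x at h1
    have h2 := congrArg γ h1
    rw [← h2]
    exact (γ.apply_symm_apply _)

/-- the bijection `G_ℚ / Gal(ℚ̄/E) ≃ (E →ₐ[ℚ] ℚ̄)`. -/
noncomputable def Dict_quotEquiv : (GQ ⧸ E.fixingSubgroup) ≃ (E →ₐ[ℚ] Qb) :=
  Equiv.ofBijective
    (Quotient.lift (s := QuotientGroup.leftRel E.fixingSubgroup) (resE E) (by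
      intro γ γ' h
      rw [resE_eq_iff]
      exact QuotientGroup.leftRel_apply.1 h))
    (by
      constructor
      · intro q q'
        induction q using QuotientGroup.induction_on with
        | H γ =>
        induction q' using QuotientGroup.induction_on with
        | H γ' =>
        intro h
        exact QuotientGroup.eq.2 ((resE_eq_iff E γ γ').1 h)
      · intro ι
        obtain ⟨γ, hγ⟩ := resE_surjective E ι
        exact ⟨QuotientGroup.mk γ, hγ⟩)

theorem Dict_quotEquiv_mk (γ : GQ) :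
    Dict_quotEquiv E (QuotientGroup.mk γ : GQ ⧸ E.fixingSubgroup) = resE E γ := rfl

theorem Dict_quotEquiv_smul (φ : GQ) (q : GQ ⧸ E.fixingSubgroup) :
    Dict_quotEquiv E (φ • q) = (φ : Qb →ₐ[ℚ] Qb).comp (Dict_quotEquiv E q) := by
  induction q using QuotientGroup.induction_on with
  | H γ =>
  rw [MulAction.Quotient.smul_mk, Dict_quotEquiv_mk, Dict_quotEquiv_mk]
  ext x
  rfl

/-- (task FDd-Emb) PROOF. `γ U ↦ resE γ` is a bijection `GQ ⧸ U ≃ (E →ₐ[ℚ] Qb)`, `U = E.fixingSubgroup`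
(`resE_surjective`, `resE_eq_iff`, `QuotientGroup.eq`), and `φ • γ U = (φ γ) U ↦ φ ∘ resE γ`. -/
theorem card_fixedBy_eq (φ : GQ) :
    Nat.card (MulAction.fixedBy (GQ ⧸ E.fixingSubgroup) φ) =
      Nat.card {ι : E →ₐ[ℚ] Qb // (φ : Qb →ₐ[ℚ] Qb).comp ι = ι} := by
  refine Nat.card_congr ((Dict_quotEquiv E).subtypeEquiv ?_)
  intro q
  rw [MulAction.mem_fixedBy, ← Dict_quotEquiv_smul, (Dict_quotEquiv E).apply_eq_iff_eq]

/-- integral elements have valuation `≤ 1`. -/
theorem val_le_one (A : ValuationSubring Qb) (ι : E →ₐ[ℚ] Qb) (x : 𝓞 E) :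
    A.valuation (ι (x : E)) ≤ 1 := by
  rw [A.valuation_le_one_iff]
  apply Fermat.Agent.S54.mem_of_isIntegral A
  have h1 : IsIntegral ℤ (x : E) := x.2
  exact h1.map (ι.restrictScalars ℤ)

/-- the centre of `A` on `𝓞 E` along `ι`. -/
def DictNorm_cen (A : ValuationSubring Qb) (ι : E →ₐ[ℚ] Qb) : Ideal (𝓞 E) where
  carrier := {x | A.valuation (ι (x : E)) < 1}
  zero_mem' := by
    show A.valuation (ι ((0 : 𝓞 E) : E)) < 1
    simp
  add_mem' := by
    intro a b ha hb
    show A.valuation (ι ((a + b : 𝓞 E) : E)) < 1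
    rw [RingOfIntegers.coe_eq_algebraMap, map_add, map_add]
    exact Valuation.map_add_lt _ ha hb
  smul_mem' := by
    intro c x hx
    show A.valuation (ι ((c • x : 𝓞 E) : E)) < 1
    rw [smul_eq_mul, RingOfIntegers.coe_eq_algebraMap, map_mul, map_mul, map_mul]
    exact lt_of_le_of_lt (mul_le_of_le_one_left' (val_le_one E A ι c)) hx

theorem DictNorm_mem_cen (A : ValuationSubring Qb) (ι : E →ₐ[ℚ] Qb) (x : 𝓞 E) :
    x ∈ DictNorm_cen E A ι ↔ A.valuation (ι (x : E)) < 1 := Iff.rfl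

theorem DictNorm_cen_isPrime (A : ValuationSubring Qb) (ι : E →ₐ[ℚ] Qb) :
    (DictNorm_cen E A ι).IsPrime := by
  refine ⟨?_, ?_⟩
  · rw [Ideal.ne_top_iff_one, DictNorm_mem_cen]
    simp
  · intro x y hxy
    rw [DictNorm_mem_cen, RingOfIntegers.coe_eq_algebraMap, map_mul, map_mul, map_mul] at hxy
    by_contra hcon
    rw [not_or, DictNorm_mem_cen, DictNorm_mem_cen, not_lt, not_lt] at hcon
    have h1 := le_antisymm (val_le_one E A ι x) hcon.1
    have h2 := le_antisymm (val_le_one E A ι y) hcon.2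
    rw [h1, h2, one_mul] at hxy
    exact lt_irrefl _ hxy

/-- a nonzero algebraic integer divides a nonzero rational integer. -/
theorem Dict_exists_int_multiple {δ : Qb} (hδ : IsIntegral ℤ δ) (h0 : δ ≠ 0) :
    ∃ c : ℤ, c ≠ 0 ∧ ∃ y : Qb, IsIntegral ℤ y ∧ (c : Qb) = δ * y := by
  have hc0 : (minpoly ℤ δ).coeff 0 ≠ 0 := by
    intro hc
    have h1 : minpoly ℚ δ = (minpoly ℤ δ).map (algebraMap ℤ ℚ) :=
      minpoly.isIntegrallyClosed_eq_field_fractions' ℚ hδ
    have h2 := minpoly.coeff_zero_ne_zero (hδ.tower_top : IsIntegral ℚ δ) h0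
    rw [h1, Polynomial.coeff_map, hc, map_zero] at h2
    exact h2 rfl
  refine ⟨(minpoly ℤ δ).coeff 0, hc0, - Polynomial.aeval δ (minpoly ℤ δ).divX, ?_, ?_⟩
  · refine IsIntegral.neg ?_
    have : Polynomial.aeval δ (minpoly ℤ δ).divX ∈ Algebra.adjoin ℤ {δ} := by
      rw [Algebra.adjoin_singleton_eq_range_aeval]
      exact ⟨_, rfl⟩
    exact IsIntegral.of_mem_of_fg _ (hδ.fg_adjoin_singleton) _ this
  · have h1 : Polynomial.aeval δ (minpoly ℤ δ) = 0 := minpoly.aeval ℤ δ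
    rw [← Polynomial.divX_mul_X_add (minpoly ℤ δ)] at h1
    rw [map_add, map_mul, Polynomial.aeval_X, Polynomial.aeval_C, eq_intCast] at h1
    linear_combination h1

/-- an embedding of `ℚ(α)` is determined by the image of `α`. -/
theorem Dict_algHom_ext {α : E} (hα : IntermediateField.adjoin ℚ {α} = ⊤) {ι ι' : E →ₐ[ℚ] Qb}
    (h : ι α = ι' α) : ι = ι' := by
  ext x
  have hx : x ∈ IntermediateField.adjoin ℚ {α} := by rw [hα]; trivial
  induction hx using IntermediateField.adjoin_induction with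
  | mem y hy => rw [Set.mem_singleton_iff.1 hy]; exact h
  | algebraMap y => rw [AlgHom.commutes, AlgHom.commutes]
  | add y z _ _ hy hz => rw [map_add, map_add, hy, hz]
  | inv y _ hy => rw [map_inv₀, map_inv₀, hy]
  | mul y z _ _ hy hz => rw [map_mul, map_mul, hy, hz]

variable [NumberField E]

/-- (task FDd-Sep) a primitive integral element whose conjugates stay distinct modulo almost all primes.
PROOF. `α` primitive (`Field.exists_primitive_element ℚ E`), `θ = d α` integral for some integer `d ≠ 0`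
(`exists_integral_multiple`, `IsIntegralClosure`/`NumberField.RingOfIntegers`), still primitive, so an embedding is
determined by its value at `θ` (`IntermediateField.adjoin` `AlgHom.ext_of_adjoin_eq_top`/
`PowerBasis.algHom_ext`).  `δ := ∏_{ι ≠ ι'} (ι θ - ι' θ) ∈ Qb` (finite product over pairs; `E →ₐ[ℚ] Qb` is finite) is `≠ 0` and
integral over `ℤ`.  The constant coefficient `c₀` of `minpoly ℤ δ` (or of `minpoly ℚ δ`, an integer polynomial) is a nonzero integer and
`c₀ = δ * (integral element)` (`minpoly.aeval`: `δ^n + .. + c₁ δ + c₀ = 0`).  `B := c₀.natAbs.primeFactors`.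
If `A` lies over `p` and `v(ι θ - ι' θ) < 1` with `ι ≠ ι'` then `v(δ) < 1` (all the other factors have `v ≤ 1`:
`val_le_one`), so `v(c₀) < 1`, so `p ∣ c₀` (`Fermat.Agent.S05.val_int`). -/
theorem exists_separating : ∃ (θ : 𝓞 E) (B : Finset ℕ),
    ∀ p : ℕ, p.Prime → p ∉ B → ∀ A : ValuationSubring Qb, A.LiesOverPrime p →
      ∀ ι ι' : E →ₐ[ℚ] Qb, A.valuation (ι (θ : E) - ι' (θ : E)) < 1 → ι = ι' := by
  classical
  obtain ⟨α, hα⟩ := Field.exists_primitive_element ℚ E
  have halg : IsAlgebraic ℤ α := by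
    have h1 : IsAlgebraic ℚ α := Algebra.IsAlgebraic.isAlgebraic α
    exact (IsFractionRing.isAlgebraic_iff ℤ ℚ E).mpr h1
  obtain ⟨d, hd0, hd⟩ := halg.exists_integral_multiple
  let θ : 𝓞 E := ⟨d • α, hd⟩
  have hθ : ((θ : 𝓞 E) : E) = (d : E) * α := by
    show d • α = _
    rw [zsmul_eq_mul]
  have hdE : (d : Qb) ≠ 0 := by exact_mod_cast hd0
  have hinj : ∀ ι ι' : E →ₐ[ℚ] Qb, ι (θ : E) = ι' (θ : E) → ι = ι' := by
    intro ι ι' h
    rw [hθ, map_mul, map_mul, map_intCast, map_intCast] at h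
    exact Dict_algHom_ext E hα (mul_left_cancel₀ hdE h)
  have hint : ∀ ι : E →ₐ[ℚ] Qb, IsIntegral ℤ (ι (θ : E)) := by
    intro ι
    have h1 : IsIntegral ℤ (θ : E) := θ.2
    exact h1.map (ι.restrictScalars ℤ)
  have key : ∀ x : (E →ₐ[ℚ] Qb) × (E →ₐ[ℚ] Qb), ∃ c : ℤ, c ≠ 0 ∧
      (x.1 ≠ x.2 → ∃ y : Qb, IsIntegral ℤ y ∧ (c : Qb) = (x.1 (θ : E) - x.2 (θ : E)) * y) := by
    intro x
    by_cases hx : x.1 = x.2
    · exact ⟨1, one_ne_zero, fun h => absurd hx h⟩
    · have h0 : x.1 (θ : E) - x.2 (θ : E) ≠ 0 := fun h => hx (hinj _ _ (sub_eq_zero.1 h))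
      obtain ⟨c, hc, y, hy, h⟩ := Dict_exists_int_multiple ((hint x.1).sub (hint x.2)) h0
      exact ⟨c, hc, fun _ => ⟨y, hy, h⟩⟩
  choose c hc hcy using key
  have : Fintype (E →ₐ[ℚ] Qb) := Fintype.ofFinite _
  refine ⟨θ, Finset.univ.biUnion (fun x => (c x).natAbs.primeFactors), ?_⟩
  intro p hp hpB A hA ι ι' hv
  by_contra hne
  obtain ⟨y, hy, h⟩ := hcy (ι, ι') hne
  have hy1 : A.valuation y ≤ 1 := by
    rw [A.valuation_le_one_iff]
    exact Fermat.Agent.S54.mem_of_isIntegral A hy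
  have hlt : A.valuation ((c (ι, ι') : ℤ) : Qb) < 1 := by
    rw [h, map_mul]
    exact lt_of_le_of_lt (mul_le_of_le_one_right' hy1) hv
  have hdvd : (p : ℤ) ∣ c (ι, ι') := ((Fermat.Agent.S05.val_int A hp hA _).2).1 hlt
  apply hpB
  rw [Finset.mem_biUnion]
  refine ⟨(ι, ι'), Finset.mem_univ _, ?_⟩
  rw [Nat.mem_primeFactors]
  refine ⟨hp, ?_, Int.natAbs_ne_zero.2 (hc _)⟩
  exact Int.natCast_dvd.1 hdvd

/-- (helper of `exists_prime_of_fixed`) the centre of `A` on `𝓞 E` along `ι`. -/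
def DictFixed_centre (A : ValuationSubring Qb) (ι : E →ₐ[ℚ] Qb) : Ideal (𝓞 E) where
  carrier := {x | A.valuation (ι (x : E)) < 1}
  add_mem' := fun {a b} ha hb => by
    simp only [Set.mem_ofPred_eq, map_add] at ha hb ⊢
    exact Valuation.map_add_lt _ ha hb
  zero_mem' := by simp
  smul_mem' := fun c x hx => by
    simp only [smul_eq_mul, Set.mem_ofPred_eq, map_mul] at hx ⊢
    exact lt_of_le_of_lt (mul_le_of_le_one_left' (val_le_one E A ι c)) hx

theorem DictFixed_mem_centre (A : ValuationSubring Qb) (ι : E →ₐ[ℚ] Qb) (x : 𝓞 E) :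
    x ∈ DictFixed_centre E A ι ↔ A.valuation (ι (x : E)) < 1 := Iff.rfl

theorem DictFixed_isPrime (A : ValuationSubring Qb) (ι : E →ₐ[ℚ] Qb) :
    (DictFixed_centre E A ι).IsPrime := by
  refine ⟨?_, ?_⟩
  · rw [Ideal.ne_top_iff_one, DictFixed_mem_centre]
    simp
  · intro x y hxy
    rw [DictFixed_mem_centre] at hxy
    simp only [DictFixed_mem_centre]
    by_contra hcon
    push Not at hcon
    have h1 := le_antisymm (val_le_one E A ι x) hcon.1
    have h2 := le_antisymm (val_le_one E A ι y) hcon.2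
    simp only [map_mul, h1, h2, mul_one, lt_self_iff_false] at hxy

/-- (task FDd-Fixed) the centre of `A` on `𝓞 E` along an embedding fixed by a Frobenius element has norm `p`.
PROOF. `P := {x | v(ι x) < 1}` is an ideal of `𝓞 E` (`val_le_one`, `Valuation.map_add_lt`), prime
(`v(ι x) v(ι y) < 1`, both `≤ 1` in a linearly ordered group with zero), contains `p` (`hA`), `≠ ⊥`, `1 ∉ P`.
For `x ∈ 𝓞 E`: `x^p - x ∈ P` because `φ (ι x) = ι x` and `v(φ y - y^p) < 1` for `v(y) ≤ 1`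
(`Fermat.Agent.ES.D.frobenius_spec`).  So every element of the finite field `k = 𝓞 E ⧸ P` is a root of `X^p - X`:
`card k ≤ p` (`Fermat.Agent.FD.card_le_of_forall_pow_eq`), and `card k` is a power `p^f`, `f ≥ 1`, of `p`
(`p ∈ P`; e.g. `Ideal.absNorm` and `CharP k p`, `FiniteField.card`), so `card k = p`;
`Ideal.absNorm_apply`, `Submodule.cardQuot_apply`. -/
theorem exists_prime_of_fixed (p : ℕ) (hp : p.Prime) (A : ValuationSubring Qb)
    (hA : A.LiesOverPrime p) (φ : GQ) (hφ : A.IsFrobeniusAt φ p) (ι : E →ₐ[ℚ] Qb)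
    (hι : (φ : Qb →ₐ[ℚ] Qb).comp ι = ι) :
    ∃ v : HeightOneSpectrum (𝓞 E), Ideal.absNorm v.asIdeal = p ∧
      ∀ x : 𝓞 E, x ∈ v.asIdeal ↔ A.valuation (ι (x : E)) < 1 := by
  have hprime := DictFixed_isPrime E A ι
  have hpmem : (p : 𝓞 E) ∈ DictFixed_centre E A ι := by
    rw [DictFixed_mem_centre]
    have h1 : (p : Qb) ∈ A.nonunits := hA
    rw [ValuationSubring.mem_nonunits_iff] at h1
    simpa using h1
  have hne : DictFixed_centre E A ι ≠ ⊥ := by
    intro h0
    rw [h0, Ideal.mem_bot] at hpmem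
    exact hp.ne_zero (by exact_mod_cast hpmem)
  refine ⟨⟨DictFixed_centre E A ι, hprime, hne⟩, ?_, fun x => Iff.rfl⟩
  change Ideal.absNorm (DictFixed_centre E A ι) = p
  rw [Ideal.absNorm_apply, Submodule.cardQuot_apply]
  have hfin : Finite (𝓞 E ⧸ DictFixed_centre E A ι) := Ideal.finiteQuotientOfFreeOfNeBot _ hne
  have hdom : IsDomain (𝓞 E ⧸ DictFixed_centre E A ι) := Ideal.Quotient.isDomain _
  apply le_antisymm
  · refine Fermat.Agent.FD.card_le_of_forall_pow_eq p hp.one_lt ?_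
    intro y
    obtain ⟨x, rfl⟩ := Ideal.Quotient.mk_surjective y
    rw [← map_pow, Ideal.Quotient.eq, DictFixed_mem_centre]
    have h1 := Fermat.Agent.ES.D.frobenius_spec hφ (ι (x : E)) (val_le_one E A ι x)
    have h2 : φ (ι (x : E)) = ι (x : E) := DFunLike.congr_fun hι (x : E)
    rw [h2, ← Valuation.map_neg] at h1
    simpa using h1
  · have hchar : CharP (𝓞 E ⧸ DictFixed_centre E A ι) p := by
      rw [CharP.charP_iff_prime_eq_zero hp]
      have := Ideal.Quotient.eq_zero_iff_mem.mpr hpmem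
      simpa using this
    have : Fact p.Prime := ⟨hp⟩
    have hinj := (ZMod.castHom (dvd_refl p) (𝓞 E ⧸ DictFixed_centre E A ι)).injective
    have := Nat.card_le_card_of_injective _ hinj
    rwa [Nat.card_zmod] at this

/-- (task FDd-Norm) every prime of `E` over `p` is the centre of `A` along some embedding.
PROOF. For each `ι` let `P_ι = {x | v(ι x) < 1}`, a prime (maximal) ideal containing `p` (as in
`exists_prime_of_fixed`).  Suppose `v.asIdeal ≠ P_ι` for all `ι`; then `v.asIdeal ⊄ P_ι` (both maximal), so by prime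
avoidance (`Ideal.subset_union_prime`, finitely many `ι`) there is `x ∈ v.asIdeal` with `x ∉ P_ι`, i.e. `v(ι x) = 1`, for all `ι`.
`N := Algebra.norm ℤ x ∈ v.asIdeal ∩ ℤ` (`Algebra.norm_mem`-type lemma: `x ∣ N x` in `𝓞 E`: `Ideal.absNorm_mem`/
`Algebra.dvd_norm`..., or: `N x = ∏_ι ι x` and Cayley-Hamilton), and `v.asIdeal ∩ ℤ = pℤ`, so `p ∣ N`, `v(N) < 1`.  But the image of `N` in `Qb` is
`∏_ι ι x` (`Algebra.norm_eq_prod_embeddings ℚ Qb`), of valuation `1`.  Contradiction. -/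
theorem exists_emb_of_prime (p : ℕ) (hp : p.Prime) (A : ValuationSubring Qb)
    (hA : A.LiesOverPrime p) (v : HeightOneSpectrum (𝓞 E)) (hv : (p : 𝓞 E) ∈ v.asIdeal) :
    ∃ ι : E →ₐ[ℚ] Qb, ∀ x : 𝓞 E, x ∈ v.asIdeal ↔ A.valuation (ι (x : E)) < 1 := by
  classical
  by_contra hcon
  have hmax : v.asIdeal.IsMaximal := v.isMaximal
  -- `v` is contained in no centre
  have hnle : ¬ ∃ ι ∈ (Finset.univ : Finset (E →ₐ[ℚ] Qb)), v.asIdeal ≤ DictNorm_cen E A ι := by
    rintro ⟨ι, -, hle⟩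
    have heq : v.asIdeal = DictNorm_cen E A ι :=
      hmax.eq_of_le (DictNorm_cen_isPrime E A ι).ne_top hle
    exact hcon ⟨ι, fun x => by rw [heq, DictNorm_mem_cen]⟩
  rw [← Ideal.subset_union_prime (f := DictNorm_cen E A) (E.val : E →ₐ[ℚ] Qb)
    (E.val : E →ₐ[ℚ] Qb) (fun ι _ _ _ => DictNorm_cen_isPrime E A ι), Set.not_subset] at hnle
  obtain ⟨x, hxv, hx⟩ := hnle
  have hx1 : ∀ ι : E →ₐ[ℚ] Qb, A.valuation (ι (x : E)) = 1 := by
    intro ι
    refine le_antisymm (val_le_one E A ι x) ?_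
    rw [← not_lt]
    intro hlt
    apply hx
    simp only [Set.mem_iUnion]
    exact ⟨ι, by simp, hlt⟩
  -- the norm
  have hNmem : ((Algebra.norm ℤ x).natAbs : 𝓞 E) ∈ v.asIdeal := by
    have h1 : ((Ideal.absNorm (Ideal.span {x}) : ℕ) : 𝓞 E) ∈ Ideal.span {x} :=
      Ideal.absNorm_mem _
    rw [Ideal.absNorm_span_singleton] at h1
    exact (Ideal.span_singleton_le_iff_mem _).mpr hxv h1
  have hdvd : (p : ℤ) ∣ Algebra.norm ℤ x := by
    by_contra hnd
    have hcop : IsCoprime (p : ℤ) ((Algebra.norm ℤ x).natAbs : ℤ) := by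
      rw [Prime.coprime_iff_not_dvd (Nat.prime_iff_prime_int.mp hp), Int.dvd_natAbs]
      exact hnd
    obtain ⟨a, b, hab⟩ := hcop
    have h1 : (1 : 𝓞 E) ∈ v.asIdeal := by
      have := congrArg (fun z : ℤ => (z : 𝓞 E)) hab
      simp only [Int.cast_add, Int.cast_mul, Int.cast_natCast, Int.cast_one] at this
      rw [← this]
      exact v.asIdeal.add_mem (v.asIdeal.mul_mem_left _ hv) (v.asIdeal.mul_mem_left _ hNmem)
    exact hmax.ne_top ((Ideal.eq_top_iff_one _).mpr h1)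
  have hlt : A.valuation ((Algebra.norm ℤ x : ℤ) : Qb) < 1 :=
    ((Fermat.Agent.S05.val_int A hp hA _).2).mpr hdvd
  have hprod : ((Algebra.norm ℤ x : ℤ) : Qb) = ∏ σ : E →ₐ[ℚ] Qb, σ (x : E) := by
    rw [← Algebra.norm_eq_prod_embeddings ℚ Qb (x : E), ← Algebra.coe_norm_int]
    simp
  rw [hprod, map_prod, Finset.prod_congr rfl (fun ι _ => hx1 ι), Finset.prod_const_one] at hlt
  exact lt_irrefl _ hlt

/-- the number of primes of `E` of norm `p`. -/
noncomputable def nP (p : ℕ) : ℕ :=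
  Nat.card {v : HeightOneSpectrum (𝓞 E) // Ideal.absNorm v.asIdeal = p}

/-- residue field of a prime of norm `p`: Fermat's little theorem and integer representatives. -/
theorem Dict_residue {p : ℕ} (hp : p.Prime) (v : HeightOneSpectrum (𝓞 E))
    (hv : Ideal.absNorm v.asIdeal = p) (x : 𝓞 E) :
    x ^ p - x ∈ v.asIdeal ∧ ∃ n : ℕ, x - (n : 𝓞 E) ∈ v.asIdeal := by
  classical
  have hmax : v.asIdeal.IsMaximal := v.isMaximal
  letI : Field (𝓞 E ⧸ v.asIdeal) := Ideal.Quotient.field v.asIdeal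
  have hcard : Nat.card (𝓞 E ⧸ v.asIdeal) = p := by
    rw [← hv, Ideal.absNorm_apply, Submodule.cardQuot_apply]
  have hfin : Finite (𝓞 E ⧸ v.asIdeal) := Nat.finite_of_card_ne_zero (by rw [hcard]; exact hp.ne_zero)
  letI : Fintype (𝓞 E ⧸ v.asIdeal) := Fintype.ofFinite _
  have hcard' : Fintype.card (𝓞 E ⧸ v.asIdeal) = p := by rw [← Nat.card_eq_fintype_card, hcard]
  constructor
  · rw [← Ideal.Quotient.eq, map_pow]
    have := FiniteField.pow_card (Ideal.Quotient.mk v.asIdeal x)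
    rwa [hcard'] at this
  · have hp0 : ((p : ℕ) : 𝓞 E ⧸ v.asIdeal) = 0 := by
      have h1 : ((p : ℕ) : 𝓞 E) ∈ v.asIdeal := by
        rw [← hv]
        exact Ideal.absNorm_mem v.asIdeal
      have h2 := (Ideal.Quotient.eq_zero_iff_mem).2 h1
      rwa [map_natCast] at h2
    haveI : CharP (𝓞 E ⧸ v.asIdeal) p := (CharP.charP_iff_prime_eq_zero hp).2 hp0
    haveI : Fact p.Prime := ⟨hp⟩
    let f : ZMod p →+* (𝓞 E ⧸ v.asIdeal) := ZMod.castHom (dvd_refl p) _
    have hf : Function.Bijective f :=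
      (Fintype.bijective_iff_injective_and_card f).2 ⟨f.injective, by rw [ZMod.card, hcard']⟩
    obtain ⟨z, hz⟩ := hf.2 (Ideal.Quotient.mk v.asIdeal x)
    refine ⟨z.val, ?_⟩
    rw [← Ideal.Quotient.eq, map_natCast, ← hz, ← map_natCast f, ZMod.natCast_zmod_val]

/-- (task FDd-Count) **the dictionary.**
PROOF. `θ, B` from `exists_separating`; `p ∉ B`.  By `card_fixedBy_eq` it is enough to construct a bijection
`Ψ : {ι // φ ∘ ι = ι} → {v // N v = p}`; `Ψ ι :=` the prime given by `exists_prime_of_fixed`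
(`x ∈ Ψ ι ↔ v(ι x) < 1`).
INJECTIVE: `Ψ ι = Ψ ι' = P`, `N P = p`: the `p` integers `0..p-1` are pairwise incongruent mod `P`, so they represent all classes
(or: `𝓞 E ⧸ P` has `p` elements and characteristic `p`, so `ZMod p → 𝓞 E ⧸ P` is bijective): `θ - k ∈ P` for some integer `k`;
hence `v(ι θ - k) < 1` and `v(ι' θ - k) < 1`, so `v(ι θ - ι' θ) < 1`, so `ι = ι'`.
SURJECTIVE: `N v = p` gives `p ∈ v` (`Ideal.absNorm_mem`); `ι` from `exists_emb_of_prime`.  For `x = θ`:
`θ^p - θ ∈ v` (the residue field has `p` elements: `FiniteField.pow_card`), so `v(ι θ ^ p - ι θ) < 1`; with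
`Fermat.Agent.ES.D.frobenius_spec`: `v(φ (ι θ) - ι θ) < 1`, i.e. `v((φ ∘ ι) θ - ι θ) < 1`, so `φ ∘ ι = ι`.
`Ψ ι = v` because both ideals have the same elements (`HeightOneSpectrum.ext`). -/
theorem card_primes_eq : ∃ B : Finset ℕ, ∀ p : ℕ, p.Prime → p ∉ B →
    ∀ (A : ValuationSubring Qb) (φ : GQ), A.LiesOverPrime p → A.IsFrobeniusAt φ p →
      nP E p = Nat.card (MulAction.fixedBy (GQ ⧸ E.fixingSubgroup) φ) := by
  classical
  obtain ⟨θ, B, hθ⟩ := exists_separating E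
  refine ⟨B, fun p hp hpB A φ hA hφ => ?_⟩
  rw [card_fixedBy_eq E φ, nP]
  symm
  have hΨ : ∀ ι : {ι : E →ₐ[ℚ] Qb // (φ : Qb →ₐ[ℚ] Qb).comp ι = ι},
      ∃ v : HeightOneSpectrum (𝓞 E), Ideal.absNorm v.asIdeal = p ∧
        ∀ x : 𝓞 E, x ∈ v.asIdeal ↔ A.valuation (ι.1 (x : E)) < 1 :=
    fun ι => exists_prime_of_fixed E p hp A hA φ hφ ι.1 ι.2
  choose Ψ hΨ1 hΨ2 using hΨ
  refine Nat.card_eq_of_bijective
    (fun ι => (⟨Ψ ι, hΨ1 ι⟩ : {v : HeightOneSpectrum (𝓞 E) // Ideal.absNorm v.asIdeal = p}))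
    ⟨?_, ?_⟩
  · intro ι ι' h
    have h' : Ψ ι = Ψ ι' := congrArg Subtype.val h
    obtain ⟨n, hn⟩ := (Dict_residue E hp (Ψ ι) (hΨ1 ι) θ).2
    have h1 : A.valuation (ι.1 (θ : E) - (n : Qb)) < 1 := by
      have := (hΨ2 ι _).1 hn
      simpa using this
    have h2 : A.valuation (ι'.1 (θ : E) - (n : Qb)) < 1 := by
      rw [h'] at hn
      have := (hΨ2 ι' _).1 hn
      simpa using this
    have h3 : A.valuation (ι.1 (θ : E) - ι'.1 (θ : E)) < 1 := by
      have := Valuation.map_sub_lt _ h1 h2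
      simpa using this
    exact Subtype.ext (hθ p hp hpB A hA ι.1 ι'.1 h3)
  · rintro ⟨v, hv⟩
    have hpv : (p : 𝓞 E) ∈ v.asIdeal := by
      have := Ideal.absNorm_mem v.asIdeal
      rwa [hv] at this
    obtain ⟨ι, hι⟩ := exists_emb_of_prime E p hp A hA v hpv
    have h1 : A.valuation (ι (θ : E) ^ p - ι (θ : E)) < 1 := by
      have := (hι _).1 (Dict_residue E hp v hv θ).1
      simpa using this
    have h2 : A.valuation (φ (ι (θ : E)) - ι (θ : E) ^ p) < 1 :=
      Fermat.Agent.ES.D.frobenius_spec hφ _ (val_le_one E A ι θ)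
    have h3 : A.valuation (((φ : Qb →ₐ[ℚ] Qb).comp ι) (θ : E) - ι (θ : E)) < 1 := by
      have := Valuation.map_add_lt _ h2 h1
      simpa using this
    have hfix : (φ : Qb →ₐ[ℚ] Qb).comp ι = ι := hθ p hp hpB A hA _ _ h3
    refine ⟨⟨ι, hfix⟩, Subtype.ext ?_⟩
    refine HeightOneSpectrum.ext (Ideal.ext fun x => ?_)
    exact (hΨ2 ⟨ι, hfix⟩ x).trans (hι x).symm

end Fermat.Agent.S48.CH
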