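/-
S48 / FDd, group theory (tasks S48/FDd-aC, S48/FDd-Coeff, S48/FDd-Burnside).  Mathlib only.
`aC C g` = number of fixed points of `g` on `G ⧸ C`.  Every function on `G` which is constant on divisions
is a linear combination of the `aC C`, `C` cyclic.
-/
import Mathlib

set_option autoImplicit false

namespace Fermat.Agent.S48.CH

variable {G : Type} [Group G]

/-- the number of fixed points of `g` on `G ⧸ C`. -/
noncomputable def aC (C : Subgroup G) (g : G) : ℝ := (Nat.card (MulAction.fixedBy (G ⧸ C) g) : ℝ)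

/-- `F` is constant on divisions. -/
def IsDivInv (F : G → ℝ) : Prop :=
  (∀ x g : G, F (x * g * x⁻¹) = F g) ∧ ∀ (g : G) (j : ℕ), j.Coprime (orderOf g) → F (g ^ j) = F g

/-- (task FDd-aC) `x C` is fixed by `g` iff `x⁻¹ g x ∈ C` (`MulAction.mem_fixedBy`, `QuotientGroup.eq`). -/
theorem mem_fixedBy_iff (C : Subgroup G) (g x : G) :
    ((x : G ⧸ C) ∈ MulAction.fixedBy (G ⧸ C) g) ↔ x⁻¹ * g * x ∈ C := by
  rw [MulAction.mem_fixedBy]
  have h1 : g • (x : G ⧸ C) = ((g * x : G) : G ⧸ C) := rfl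
  rw [h1, eq_comm, QuotientGroup.eq, mul_assoc]

variable [Finite G]

/-- (task FDd-aC) PROOF. Conjugation: `q ↦ x • q` is a bijection `fixedBy g ≃ fixedBy (x g x⁻¹)`.
Powers: `g` and `g^j` generate the same subgroup (`j` prime to the order: there is `i` with
`(g^j)^i = g`, `Nat.Coprime`/`exists_pow_eq_self_of_coprime`), so they have the same fixed points. -/
theorem isDivInv_aC (C : Subgroup G) : IsDivInv (aC C) := by
  refine ⟨fun x g => ?_, fun g j hj => ?_⟩
  · unfold aC
    congr 1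
    refine (Nat.card_congr ?_).symm
    refine ⟨fun q => ⟨x • q.1, ?_⟩, fun q => ⟨x⁻¹ • q.1, ?_⟩, fun q => ?_, fun q => ?_⟩
    · have hq : g • q.1 = q.1 := q.2
      rw [MulAction.mem_fixedBy, ← mul_smul, inv_mul_cancel_right, mul_smul, hq]
    · have hq : (x * g * x⁻¹) • q.1 = q.1 := q.2
      rw [MulAction.mem_fixedBy]
      conv_rhs => rw [← hq]
      rw [← mul_smul, ← mul_smul]
      congr 1
      group
    · exact Subtype.ext (inv_smul_smul x q.1)
    · exact Subtype.ext (smul_inv_smul x q.1)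
  · unfold aC
    have hset : MulAction.fixedBy (G ⧸ C) (g ^ j) = MulAction.fixedBy (G ⧸ C) g := by
      ext q
      rw [MulAction.mem_fixedBy, MulAction.mem_fixedBy, ← MulAction.mem_stabilizer_iff,
        ← MulAction.mem_stabilizer_iff]
      constructor
      · intro h
        obtain ⟨i, hi⟩ := exists_pow_eq_self_of_coprime hj
        rw [← hi]
        exact pow_mem h i
      · intro h
        exact pow_mem h j
    rw [hset]

/-- (task FDd-aC) the coset of `1` is fixed. -/
theorem aC_zpowers_self_pos (h : G) : 0 < aC (Subgroup.zpowers h) h := by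
  unfold aC
  have : Nonempty (MulAction.fixedBy (G ⧸ Subgroup.zpowers h) h) :=
    ⟨⟨((1 : G) : G ⧸ Subgroup.zpowers h), (mem_fixedBy_iff _ _ _).2 (by simp)⟩⟩
  exact_mod_cast Nat.card_pos

/-- (task FDd-aC) a fixed point `x C` gives `x⁻¹ g x ∈ ⟨h⟩`. -/
theorem exists_conj_of_aC_ne_zero {h g : G} (H : aC (Subgroup.zpowers h) g ≠ 0) :
    ∃ (x : G) (j : ℕ), g = x * h ^ j * x⁻¹ := by
  unfold aC at H
  have H' : Nat.card (MulAction.fixedBy (G ⧸ Subgroup.zpowers h) g) ≠ 0 := by exact_mod_cast H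
  obtain ⟨⟨q, hq⟩⟩ := (Nat.card_ne_zero.1 H').1
  obtain ⟨x, rfl⟩ := QuotientGroup.mk_surjective q
  have hx := (mem_fixedBy_iff _ _ _).1 hq
  rw [← mem_powers_iff_mem_zpowers] at hx
  obtain ⟨j, hj⟩ := Submonoid.mem_powers_iff _ _ |>.1 hx
  exact ⟨x, j, by rw [hj]; group⟩

/-- (task FDd-aC) -/
theorem orderOf_dvd_of_aC_ne_zero {h g : G} (H : aC (Subgroup.zpowers h) g ≠ 0) :
    orderOf g ∣ orderOf h := by
  obtain ⟨x, j, rfl⟩ := exists_conj_of_aC_ne_zero H
  apply orderOf_dvd_of_pow_eq_one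
  rw [conj_pow, ← pow_mul, mul_comm, pow_mul, pow_orderOf_eq_one, one_pow, mul_one,
    mul_inv_cancel]

/-- (task FDd-aC) `orderOf (h^j) = orderOf h / gcd (orderOf h) j` (`orderOf_pow`). -/
theorem exists_conj_pow_of_aC_ne_zero {h g : G} (H : aC (Subgroup.zpowers h) g ≠ 0)
    (ho : orderOf g = orderOf h) :
    ∃ (x : G) (j : ℕ), j.Coprime (orderOf h) ∧ g = x * h ^ j * x⁻¹ := by
  obtain ⟨x, j, rfl⟩ := exists_conj_of_aC_ne_zero H
  refine ⟨x, j, ?_, rfl⟩
  have h1 : orderOf (x * h ^ j * x⁻¹) = orderOf (h ^ j) :=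
    (MulAut.conj x).orderOf_eq (h ^ j)
  rw [h1, orderOf_pow] at ho
  have hpos : 0 < orderOf h := orderOf_pos h
  rcases Nat.div_eq_self.1 ho with h0 | h0
  · omega
  · exact (Nat.coprime_comm.1 h0)

omit [Finite G] in
/-- helper for `exists_coeff`: `IsDivInv` is stable under `F - c • a`. -/
theorem Div_isDivInv_sub_smul {F a : G → ℝ} (hF : IsDivInv F) (ha : IsDivInv a) (c : ℝ) :
    IsDivInv (F - c • a) := by
  refine ⟨fun x g => ?_, fun g j hj => ?_⟩
  · simp only [Pi.sub_apply, Pi.smul_apply, hF.1 x g, ha.1 x g]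
  · simp only [Pi.sub_apply, Pi.smul_apply, hF.2 g j hj, ha.2 g j hj]

/-- helper for `exists_coeff`: the inner induction. -/
theorem Div_mem_span_step (n : ℕ)
    (ih : ∀ F : G → ℝ, IsDivInv F → (∀ g, F g ≠ 0 → orderOf g ≤ n) →
      F ∈ Submodule.span ℝ (Set.range (aC : Subgroup G → G → ℝ))) :
    ∀ (k : ℕ) (F : G → ℝ), IsDivInv F → (∀ g, F g ≠ 0 → orderOf g ≤ n + 1) →
      {g : G | F g ≠ 0 ∧ orderOf g = n + 1}.ncard ≤ k →
      F ∈ Submodule.span ℝ (Set.range (aC : Subgroup G → G → ℝ)) := by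
  have hempty : ∀ F : G → ℝ, IsDivInv F → (∀ g, F g ≠ 0 → orderOf g ≤ n + 1) →
      {g : G | F g ≠ 0 ∧ orderOf g = n + 1} = ∅ →
      F ∈ Submodule.span ℝ (Set.range (aC : Subgroup G → G → ℝ)) := by
    intro F hF hs hZ
    refine ih F hF fun g hg => ?_
    have h1 := hs g hg
    have h2 : orderOf g ≠ n + 1 := fun h =>
      (Set.eq_empty_iff_forall_notMem.mp hZ g) ⟨hg, h⟩
    omega
  intro k
  induction k with
  | zero =>
    intro F hF hs hk
    refine hempty F hF hs ?_
    exact (Set.ncard_eq_zero (Set.toFinite _)).mp (Nat.le_zero.mp hk)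
  | succ k ihk =>
    intro F hF hs hk
    rcases Set.eq_empty_or_nonempty {g : G | F g ≠ 0 ∧ orderOf g = n + 1} with hZ | ⟨h, hh0, hho⟩
    · exact hempty F hF hs hZ
    set a : G → ℝ := aC (Subgroup.zpowers h) with ha
    have hah : a h ≠ 0 := (aC_zpowers_self_pos h).ne'
    have haD : IsDivInv a := isDivInv_aC _
    have haW : a ∈ Submodule.span ℝ (Set.range (aC : Subgroup G → G → ℝ)) :=
      Submodule.subset_span ⟨_, rfl⟩
    set F' : G → ℝ := F - (F h / a h) • a with hF'
    have hF'D : IsDivInv F' := Div_isDivInv_sub_smul hF haD _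
    have hF'apply : ∀ g, F' g = F g - F h / a h * a g := fun g => by
      simp [hF']
    have hF's : ∀ g, F' g ≠ 0 → orderOf g ≤ n + 1 := by
      intro g hg
      by_cases hag : a g = 0
      · refine hs g fun h0 => hg ?_
        rw [hF'apply, h0, hag]; simp
      · have := Nat.le_of_dvd (orderOf_pos h) (orderOf_dvd_of_aC_ne_zero hag)
        omega
    have hsub : {g : G | F' g ≠ 0 ∧ orderOf g = n + 1} ⊆
        {g : G | F g ≠ 0 ∧ orderOf g = n + 1} \ {h} := by
      rintro g ⟨hg0, hgo⟩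
      have hag : a g = 0 := by
        by_contra hag
        obtain ⟨x, j, hj, rfl⟩ := exists_conj_pow_of_aC_ne_zero hag (hgo.trans hho.symm)
        apply hg0
        rw [hF'apply, hF.1, haD.1, hF.2 h j hj, haD.2 h j hj]
        field_simp
        ring
      refine ⟨⟨fun h0 => hg0 ?_, hgo⟩, ?_⟩
      · rw [hF'apply, h0, hag]; simp
      · rintro rfl
        exact hah hag
    have hcard : {g : G | F' g ≠ 0 ∧ orderOf g = n + 1}.ncard ≤ k := by
      have h1 := Set.ncard_le_ncard hsub (Set.toFinite _)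
      have h2 := Set.ncard_sdiff_singleton_of_mem
        (show h ∈ {g : G | F g ≠ 0 ∧ orderOf g = n + 1} from ⟨hh0, hho⟩)
      omega
    have hF'W := ihk F' hF'D hF's hcard
    have : F = F' + (F h / a h) • a := by rw [hF']; abel
    rw [this]
    exact Submodule.add_mem _ hF'W (Submodule.smul_mem _ _ haW)

/-- helper for `exists_coeff`: the outer induction. -/
theorem Div_mem_span (n : ℕ) : ∀ F : G → ℝ, IsDivInv F → (∀ g, F g ≠ 0 → orderOf g ≤ n) →
    F ∈ Submodule.span ℝ (Set.range (aC : Subgroup G → G → ℝ)) := by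
  induction n with
  | zero =>
    intro F _ hs
    have : F = 0 := by
      funext g
      by_contra hg
      have h1 := hs g hg
      have h2 := orderOf_pos g
      omega
    rw [this]
    exact Submodule.zero_mem _
  | succ n ih =>
    intro F hF hs
    exact Div_mem_span_step n ih _ F hF hs le_rfl

/-- (task FDd-Coeff) **triangular linear algebra.**
PROOF. `W` := the set of functions of the form `g ↦ ∑ C ∈ T, c C * aC C g` (closed under `+`, `-`, scalar
multiples: e.g. work with `Submodule.span ℝ (Set.range aC)` in `G → ℝ` and unfold at the end with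
`Submodule.mem_span_range_iff_exists_fun`/`Finsupp`, `Subgroup G` is finite).
Claim `P n`: every `F` with `IsDivInv F` and `∀ g, F g ≠ 0 → orderOf g ≤ n` lies in `W`.  Induction on `n`;
`P 0`: `F = 0` (`orderOf_pos`).  Step: inner (strong) induction on the cardinality of
`Z(F) = {g | F g ≠ 0 ∧ orderOf g = n+1}`.  If `Z(F) = ∅` use `P n`.  Otherwise take `h ∈ Z(F)`,
`a := aC (zpowers h)`, `F' := F - (F h / a h) • a`.  `F'` is `IsDivInv` (`isDivInv_aC`), its support consists of
elements of order `≤ n+1` (`orderOf_dvd_of_aC_ne_zero`, `Nat.le_of_dvd`), `F' h = 0`, and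
`Z(F') ⊆ Z(F) \ {h}`: let `orderOf g = n+1`; if `a g = 0` then `F' g = F g`; if `a g ≠ 0` then
`g = x h^j x⁻¹`, `j` prime to the order (`exists_conj_pow_of_aC_ne_zero`), so `F g = F h`, `a g = a h`,
`F' g = 0`. -/
theorem exists_coeff (F : G → ℝ) (hF : IsDivInv F) :
    ∃ (T : Finset (Subgroup G)) (c : Subgroup G → ℝ), ∀ g : G, F g = ∑ C ∈ T, c C * aC C g := by
  classical
  have : Fintype (Subgroup G) := Fintype.ofFinite _
  have h := Div_mem_span (Nat.card G) F hF (fun g _ => orderOf_le_card)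
  rw [Submodule.mem_span_range_iff_exists_fun] at h
  obtain ⟨c, hc⟩ := h
  refine ⟨Finset.univ, c, fun g => ?_⟩
  rw [← hc]
  simp [Finset.sum_apply]

/-- (task FDd-Burnside) Burnside's lemma for the transitive action on `G ⧸ C`:
`MulAction.sum_card_fixedBy_eq_card_orbits_mul_card_group` (needs `Fintype` instances: `Fintype.ofFinite`,
`Nat.card_eq_fintype_card`), the action on `G ⧸ C` is pretransitive so there is one orbit. -/
theorem finsum_aC (C : Subgroup G) : ∑ᶠ g : G, aC C g = Nat.card G := by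
  classical
  have := Fintype.ofFinite G
  have : Fintype (G ⧸ C) := Fintype.ofFinite _
  have : ∀ g : G, Fintype (MulAction.fixedBy (G ⧸ C) g) := fun g => Fintype.ofFinite _
  have : Fintype (MulAction.orbitRel.Quotient G (G ⧸ C)) := Fintype.ofFinite _
  have h := MulAction.sum_card_fixedBy_eq_card_orbits_mul_card_group G (G ⧸ C)
  have h1 : Fintype.card (MulAction.orbitRel.Quotient G (G ⧸ C)) = 1 := by
    rw [Fintype.card_eq_one_iff]
    refine ⟨Quotient.mk'' ((1 : G) : G ⧸ C), fun y => ?_⟩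
    induction y using Quotient.inductionOn' with
    | h y =>
      apply Quotient.sound'
      exact MulAction.exists_smul_eq G _ _
  rw [h1, one_mul] at h
  rw [finsum_eq_sum_of_fintype, Nat.card_eq_fintype_card, ← h]
  push_cast
  refine Finset.sum_congr rfl fun g _ => ?_
  rw [aC, Nat.card_eq_fintype_card]

/-- (task FDd-Burnside) sum the identity over `g ∈ G` (`finsum_aC`, `finsum_eq_sum_of_fintype`,
`Finset.sum_comm`); `∑ᶠ g, indicator D 1 g = Nat.card D`. -/
theorem sum_coeff_eq (D : Set G) (T : Finset (Subgroup G)) (c : Subgroup G → ℝ)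
    (h : ∀ g : G, D.indicator (fun _ => (1 : ℝ)) g = ∑ C ∈ T, c C * aC C g) :
    ∑ C ∈ T, c C = (Nat.card D : ℝ) / Nat.card G := by
  classical
  have := Fintype.ofFinite G
  have hG : (Nat.card G : ℝ) ≠ 0 := by
    have : 0 < Nat.card G := Nat.card_pos
    positivity
  rw [eq_div_iff hG]
  have h1 : ∑ g : G, D.indicator (fun _ => (1 : ℝ)) g = (Nat.card D : ℝ) := by
    rw [Finset.sum_indicator_eq_sum_filter]
    simp only [Finset.sum_const, nsmul_eq_mul, mul_one]
    rw [Nat.card_eq_fintype_card, Fintype.card_subtype]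
  have h2 : ∑ g : G, ∑ C ∈ T, c C * aC C g = (∑ C ∈ T, c C) * Nat.card G := by
    rw [Finset.sum_comm, Finset.sum_mul]
    refine Finset.sum_congr rfl fun C _ => ?_
    rw [← Finset.mul_sum, ← finsum_eq_sum_of_fintype, finsum_aC]
  rw [← h2, ← h1]
  exact (Finset.sum_congr rfl fun g _ => h g).symm

end Fermat.Agent.S48.CH
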