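import Fermat.Agent.Lib.FrobDensity.Main

/-!
# S48 / FDd : (R) regrouping a sum over primes of a number field according to their norm

TASK `S48/FDd-Regroup` (helper file of `Pack.lean`).
Model: `FD.psum_preimage_Spl` (`Equiv.sigmaFiberEquiv`, `Summable.tsum_sigma`, `Summable.sigma`), with the map
`v ↦ Ideal.absNorm v.asIdeal`.  `psum F X s = ∑' v, X.indicator (pnrm F s) v`, `pnrm F s v = (N v : ℝ) ^ (-s)`
(unfold `S14.AN.pnrm, nrm, toIdl`), summable for `s > 1` (`FD.summable_indicator`).
The fibres `{v | N v = p}` are finite (`Ideal.finite_setOf_absNorm_eq`, `v ↦ v.asIdeal` injective); on the fibre over `p` the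
function is `(p : ℝ) ^ (-s)` on `X` and `0` outside, so the inner sum is `ncard * p ^ (-s)`
(`tsum_fintype`/`finsum`, `Set.ncard_eq_toFinset_card'`, as in `FD.tsum_fiber_Spl`).
-/

set_option autoImplicit false

namespace Fermat.Agent.S48.CH.PackRegroup

open NumberField IsDedekindDomain Fermat.Agent.FD
open scoped NumberField

variable (F : Type) [Field F] [NumberField F]

/-- the number of `v ∈ X` of norm `p`. -/
noncomputable def nX (X : Set (HeightOneSpectrum (𝓞 F))) (p : ℕ) : ℕ :=
  {v | v ∈ X ∧ Ideal.absNorm v.asIdeal = p}.ncard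

theorem hasSum_nX (X : Set (HeightOneSpectrum (𝓞 F))) {s : ℝ} (hs : 1 < s) :
    HasSum (fun p : ℕ => (nX F X p : ℝ) * (p : ℝ) ^ (-s)) (psum F X s) := by
  classical
  have hsum : Summable (X.indicator (S14.AN.pnrm F s)) := summable_indicator F X hs
  have h1 : HasSum (X.indicator (S14.AN.pnrm F s)) (psum F X s) := hsum.hasSum
  have h2 := (Equiv.sigmaFiberEquiv
    (fun v : HeightOneSpectrum (𝓞 F) => Ideal.absNorm v.asIdeal)).hasSum_iff.2 h1
  refine HasSum.sigma h2 (fun p => ?_)
  have hfin : {v : HeightOneSpectrum (𝓞 F) | Ideal.absNorm v.asIdeal = p}.Finite := by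
    have h := Ideal.finite_setOfPred_absNorm_eq (S := 𝓞 F) p
    refine Set.Finite.of_finite_image (f := fun v : HeightOneSpectrum (𝓞 F) => v.asIdeal)
      (h.subset ?_) (fun a _ b _ hab => HeightOneSpectrum.ext hab)
    rintro _ ⟨v, hv, rfl⟩
    exact hv
  have hfin' : Finite {v : HeightOneSpectrum (𝓞 F) // Ideal.absNorm v.asIdeal = p} := hfin
  let _ : Fintype {v : HeightOneSpectrum (𝓞 F) // Ideal.absNorm v.asIdeal = p} :=
    Fintype.ofFinite _
  have h3 : ∀ c : {v : HeightOneSpectrum (𝓞 F) // Ideal.absNorm v.asIdeal = p},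
      X.indicator (S14.AN.pnrm F s) c.1 = if c.1 ∈ X then (p : ℝ) ^ (-s) else 0 := by
    intro c
    rw [Set.indicator_apply]
    split_ifs
    · change (Ideal.absNorm c.1.asIdeal : ℝ) ^ (-s) = _
      rw [c.2]
    · rfl
  have h4 : (nX F X p : ℝ) * (p : ℝ) ^ (-s) =
      ∑ c : {v : HeightOneSpectrum (𝓞 F) // Ideal.absNorm v.asIdeal = p},
        X.indicator (S14.AN.pnrm F s) c.1 := by
    rw [Finset.sum_congr rfl (fun c _ => h3 c), ← Finset.sum_filter, Finset.sum_const,
      nsmul_eq_mul]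
    congr 2
    have h5 : {v : HeightOneSpectrum (𝓞 F) | v ∈ X ∧ Ideal.absNorm v.asIdeal = p} =
        Subtype.val ''
          {c : {v : HeightOneSpectrum (𝓞 F) // Ideal.absNorm v.asIdeal = p} | c.1 ∈ X} := by
      ext v
      constructor
      · rintro ⟨h1, h2⟩
        exact ⟨⟨v, h2⟩, h1, rfl⟩
      · rintro ⟨c, hc, rfl⟩
        exact ⟨hc, c.2⟩
    rw [nX, h5, Set.ncard_image_of_injective _ Subtype.val_injective,
      Set.ncard_eq_toFinset_card']
    congr 1
    ext c
    simp
  rw [h4]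
  exact hasSum_fintype _

end Fermat.Agent.S48.CH.PackRegroup
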