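/-
S48 / FDd: for every subgroup `C ≤ G` the permutation character `aC C` has "density" `1`
(tasks S48/FDd-Field, S48/FDd-Regroup).
-/
import Fermat.Agent.S48.CH.Div
import Fermat.Agent.S48.CH.Dict
import Fermat.Agent.S48.CH.PackRegroup

set_option autoImplicit false

namespace Fermat.Agent.S48.CH

open NumberField IsDedekindDomain
open scoped NumberField

variable {G : Type} [Group G]

attribute [local instance] Fermat.Agent.S54.isAlgClosure_Qbar in
/-- (task FDd-Field) PROOF. `hlev` gives `L` finite over `ℚ` with `L.fixingSubgroup ≤ r.ker ≤ C.comap r`;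
`L.fixingSubgroup` is open (`InfiniteGalois.isOpen_iff_finite` / `IntermediateField.fixingSubgroup_isOpen`), so `U = C.comap r` is open
(`Subgroup.isOpen_mono`), hence closed; `E := IntermediateField.fixedField U`,
`InfiniteGalois.fixingSubgroup_fixedField`, `InfiniteGalois.isOpen_iff_finite`: copy the first lines of
`Fermat.Agent.FD.exists_field_of_open` (normality is not used there for these two facts; note the
`attribute [local instance] Fermat.Agent.S54.isAlgClosure_Qbar`). -/
theorem exists_field_comap (r : GQ →* G) (hlev : GaloisFactorsThroughFiniteLevel r)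
    (C : Subgroup G) :
    ∃ E : IntermediateField ℚ Qb, FiniteDimensional ℚ E ∧ E.fixingSubgroup = C.comap r := by
  obtain ⟨L, hfd, hL⟩ := hlev
  have hLo : IsOpen (L.fixingSubgroup : Set GQ) := IntermediateField.fixingSubgroup_isOpen L
  have hle : L.fixingSubgroup ≤ C.comap r := by
    intro σ hσ
    rw [IntermediateField.mem_fixingSubgroup_iff] at hσ
    rw [Subgroup.mem_comap, hL σ hσ]
    exact C.one_mem
  have hU : IsOpen ((C.comap r : Subgroup GQ) : Set GQ) := Subgroup.isOpen_mono hle hLo
  have hcl : IsClosed ((C.comap r : Subgroup GQ) : Set GQ) := (C.comap r).isClosed_of_isOpen hU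
  have h1 : (IntermediateField.fixedField (C.comap r)).fixingSubgroup = C.comap r :=
    InfiniteGalois.fixingSubgroup_fixedField (⟨C.comap r, hcl⟩ : ClosedSubgroup GQ)
  refine ⟨IntermediateField.fixedField (C.comap r), ?_, h1⟩
  rw [← InfiniteGalois.isOpen_iff_finite, h1]
  exact hU

/-- (task FDd-Field) pure group theory: `γ (C.comap r) ↦ r γ C` is a bijection `GQ ⧸ C.comap r ≃ G ⧸ C`
(well defined and injective by `QuotientGroup.eq`, `Subgroup.mem_comap`; surjective by `hr`), compatible with the actions of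
`φ` and `r φ`. -/
theorem card_fixedBy_comap (r : GQ →* G) (hr : Function.Surjective r) (C : Subgroup G) (φ : GQ) :
    Nat.card (MulAction.fixedBy (GQ ⧸ C.comap r) φ) =
      Nat.card (MulAction.fixedBy (G ⧸ C) (r φ)) := by
  -- the map on quotients
  let F : GQ ⧸ C.comap r → G ⧸ C := Quotient.map' (fun γ => r γ) (by
    intro a b hab
    rw [QuotientGroup.leftRel_apply] at hab ⊢
    rw [Subgroup.mem_comap, map_mul, map_inv] at hab
    exact hab)
  have hF : ∀ γ : GQ, F (γ : GQ ⧸ C.comap r) = ((r γ : G) : G ⧸ C) := fun γ => rfl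
  have hinj : Function.Injective F := by
    intro a b
    induction a using QuotientGroup.induction_on with | _ a => ?_
    induction b using QuotientGroup.induction_on with | _ b => ?_
    intro h
    rw [hF, hF, QuotientGroup.eq] at h
    rw [QuotientGroup.eq, Subgroup.mem_comap, map_mul, map_inv]
    exact h
  have hsurj : Function.Surjective F := by
    intro x
    induction x using QuotientGroup.induction_on with | _ x => ?_
    obtain ⟨γ, rfl⟩ := hr x
    exact ⟨(γ : GQ ⧸ C.comap r), hF γ⟩
  have hequiv : ∀ a : GQ ⧸ C.comap r, F (φ • a) = r φ • F a := by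
    intro a
    induction a using QuotientGroup.induction_on with | _ a => ?_
    have h1 : φ • (a : GQ ⧸ C.comap r) = ((φ * a : GQ) : GQ ⧸ C.comap r) := rfl
    have h2 : r φ • ((r a : G) : G ⧸ C) = ((r φ * r a : G) : G ⧸ C) := rfl
    rw [h1, hF, hF, h2, map_mul]
  refine Nat.card_congr (Equiv.ofBijective
    (fun a => (⟨F a.1, by
      rw [MulAction.mem_fixedBy, ← hequiv, MulAction.mem_fixedBy.mp a.2]⟩ :
        MulAction.fixedBy (G ⧸ C) (r φ))) ⟨?_, ?_⟩)
  · intro a b h
    exact Subtype.ext (hinj (congrArg Subtype.val h))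
  · rintro ⟨x, hx⟩
    obtain ⟨a, rfl⟩ := hsurj x
    refine ⟨⟨a, ?_⟩, rfl⟩
    rw [MulAction.mem_fixedBy] at hx ⊢
    rw [← hequiv] at hx
    exact hinj hx

/-- (task FDd-Regroup) group the primes of `E` of degree one according to their norm.
PROOF. `g v := (P1 E).indicator (pnrm E s) v` is summable with sum `psum E (P1 E) s`
(`Fermat.Agent.FD.summable_indicator`, definition of `psum`).  `π v := Ideal.absNorm v.asIdeal`.
`(Equiv.sigmaFiberEquiv π)`, `HasSum.sigma` (with `Summable.hasSum` on each fibre): the sum over the fibre of `p` is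
`nP E p * p^(-s)` if `p` is prime and `0` otherwise; the fibres are finite
(`Ideal.finite_setOf_absNorm_eq`, `HeightOneSpectrum.ext`), `tsum_fintype`/`Finset.sum_const`, `Nat.card_eq_fintype_card`;
`Fermat.Agent.S14.AN.pnrm_eq`. -/
theorem hasSum_nP (E : IntermediateField ℚ Qb) [NumberField E] {s : ℝ} (hs : 1 < s) :
    HasSum (fun p : ℕ => if p.Prime then (nP E p : ℝ) * (p : ℝ) ^ (-s) else 0)
      (Fermat.Agent.FD.psum E (Fermat.Agent.FD.P1 E) s) := by
  have h := PackRegroup.hasSum_nX E (Fermat.Agent.FD.P1 E) hs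
  refine h.congr_fun ?_ |> fun h' => h'
  intro p
  by_cases hp : p.Prime
  · rw [if_pos hp]
    congr 2
    have h1 : {v : HeightOneSpectrum (𝓞 E) |
        v ∈ Fermat.Agent.FD.P1 E ∧ Ideal.absNorm v.asIdeal = p} =
        {v : HeightOneSpectrum (𝓞 E) | Ideal.absNorm v.asIdeal = p} := by
      ext v
      constructor
      · exact fun hv => hv.2
      · intro hv
        refine ⟨?_, hv⟩
        change (Ideal.absNorm v.asIdeal).Prime
        rw [Set.mem_setOf_eq] at hv
        rw [hv]
        exact hp
    rw [PackRegroup.nX, h1, nP]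
    rfl
  · rw [if_neg hp]
    have h1 : {v : HeightOneSpectrum (𝓞 E) |
        v ∈ Fermat.Agent.FD.P1 E ∧ Ideal.absNorm v.asIdeal = p} = ∅ := by
      ext v
      simp only [Set.mem_setOf_eq, Set.mem_empty_iff_false, iff_false, not_and]
      intro hv hvp
      apply hp
      rw [← hvp]
      exact hv
    rw [PackRegroup.nX, h1, Set.ncard_empty, Nat.cast_zero, zero_mul]

/-- the package used by the main theorem: no fields any more. -/
theorem exists_pack (r : GQ →* G) (hr : Function.Surjective r)
    (hlev : GaloisFactorsThroughFiniteLevel r) (C : Subgroup G) :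
    ∃ (n : ℕ → ℕ) (P : ℝ → ℝ) (B : Finset ℕ), Fermat.Agent.FD.BddDiff P Fermat.Agent.FD.lg ∧
      (∀ s : ℝ, 1 < s →
        HasSum (fun p : ℕ => if p.Prime then (n p : ℝ) * (p : ℝ) ^ (-s) else 0) (P s)) ∧
      ∀ p : ℕ, p.Prime → p ∉ B → ∀ (A : ValuationSubring Qb) (φ : GQ), A.LiesOverPrime p →
        A.IsFrobeniusAt φ p → (n p : ℝ) = aC C (r φ) := by
  obtain ⟨E, hfd, hE⟩ := exists_field_comap r hlev C
  haveI : NumberField E := { to_charZero := inferInstance, to_finiteDimensional := hfd }
  obtain ⟨B, hB⟩ := card_primes_eq E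
  refine ⟨nP E, Fermat.Agent.FD.psum E (Fermat.Agent.FD.P1 E), B, Fermat.Agent.FD.psum_P1 E,
    fun s hs => hasSum_nP E hs, fun p hp hpB A φ hA hφ => ?_⟩
  rw [hB p hp hpB A φ hA hφ, hE, card_fixedBy_comap r hr C φ]
  rfl

end Fermat.Agent.S48.CH
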