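import Fermat.Agent.S48.Defs
import Fermat.Agent.S48.CH.Pack
import Fermat.Agent.S54.Frobenius

/-!
# S48 / FDd : the Frobenius density theorem WITH densities

(The directory is still called `CH`; full Chebotarev is NOT needed any more, see board #1262, #1289.)
Proof (board #1419 ALTERNATIVE, #1513): the indicator function of a union of divisions is a real linear combination of
the permutation characters `aC C` (`CH/Div.lean`); for `p` outside a finite set `aC C (Frob_p)` is the number of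
primes of norm `p` of the fixed field of `C` (`CH/Dict.lean`), and the sum of `N v ^ (-s)` over the
primes of degree one of a number field is `log (1/(s-1)) + O(1)` (`Lib/FrobDensity`); see `CH/Pack.lean`.
Owner of this file: helper32.
-/

set_option autoImplicit false

namespace Fermat.Agent.S48.CH

theorem Main_lg_eq (s : ℝ) : lg s = Fermat.Agent.FD.lg s := by
  unfold lg Fermat.Agent.FD.lg
  rw [one_div, Real.log_inv]

theorem Main_isDivInv {G : Type} [Group G] [Finite G] (D : Set G) (hD : IsDivStable D) :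
    IsDivInv (D.indicator (fun _ => (1 : ℝ))) := by
  have key : ∀ a b : G, (a ∈ D ↔ b ∈ D) →
      D.indicator (fun _ => (1 : ℝ)) a = D.indicator (fun _ => (1 : ℝ)) b := by
    intro a b h
    by_cases ha : a ∈ D
    · rw [Set.indicator_of_mem ha, Set.indicator_of_mem (h.1 ha)]
    · rw [Set.indicator_of_notMem ha, Set.indicator_of_notMem (fun hb => ha (h.2 hb))]
  refine ⟨fun x g => key _ _ ⟨fun h => ?_, fun h => hD.1 x g h⟩,
    fun g j hj => key _ _ ⟨fun h => ?_, fun h => hD.2 g j h hj⟩⟩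
  · have := hD.1 x⁻¹ _ h
    simpa [mul_assoc] using this
  · obtain ⟨m, hm⟩ := exists_pow_eq_self_of_coprime hj
    have ho : orderOf (g ^ j) = orderOf g := Nat.Coprime.orderOf_pow hj.symm
    have hm' : m.Coprime (orderOf (g ^ j)) := by
      have h1 : orderOf ((g ^ j) ^ m) = orderOf (g ^ j) := by rw [hm, ho]
      rw [orderOf_pow] at h1
      have h2 := (Nat.div_eq_self.1 h1).resolve_left (orderOf_pos _).ne'
      exact Nat.coprime_comm.1 h2
    have := hD.2 _ m h hm'
    rwa [hm] at this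

/-- the real-analysis part: two families of terms which agree outside a finite set. -/
theorem Main_analytic {ι : Type} (T : Finset ι) (c : ι → ℝ) (n : ι → ℕ → ℕ) (P : ι → ℝ → ℝ)
    (hP : ∀ C, Fermat.Agent.FD.BddDiff (P C) Fermat.Agent.FD.lg)
    (hS : ∀ C, ∀ s : ℝ, 1 < s →
      HasSum (fun p : ℕ => if p.Prime then (n C p : ℝ) * (p : ℝ) ^ (-s) else 0) (P C s))
    (Bad : Finset ℕ) (Q : ℕ → Prop)
    (hQ : ∀ p : ℕ, p.Prime → p ∉ Bad → (∑ C ∈ T, c C * (n C p : ℝ)) = (open Classical in if Q p then 1 else 0)) :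
    ∃ K : ℝ, ∀ s : ℝ, 1 < s → s ≤ 2 →
      |psum Q (fun _ => 1) s - (∑ C ∈ T, c C) * lg s| ≤ K := by
  classical
  choose K hK using hP
  refine ⟨∑ C ∈ T, |c C| * K C + ∑ p ∈ Bad, (1 + ∑ C ∈ T, |c C| * (n C p : ℝ)), fun s hs hs2 => ?_⟩
  set h : ℕ → ℝ := fun p => ∑ C ∈ T, c C * (if p.Prime then (n C p : ℝ) * (p : ℝ) ^ (-s) else 0)
    with hh
  have hsum_h : HasSum h (∑ C ∈ T, c C * P C s) :=
    hasSum_sum (fun C _ => (hS C s hs).mul_left (c C))
  have hle1 : ∀ p : ℕ, p.Prime → (p : ℝ) ^ (-s) ≤ 1 := by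
    intro p hp
    apply Real.rpow_le_one_of_one_le_of_nonpos
    · exact_mod_cast hp.one_lt.le
    · linarith
  have hnn : ∀ p : ℕ, 0 ≤ (p : ℝ) ^ (-s) := fun p => Real.rpow_nonneg (Nat.cast_nonneg p) _
  have hagree : ∀ p ∉ Bad, pterm Q (fun _ => 1) s p - h p = 0 := by
    intro p hp
    by_cases hpp : p.Prime
    · have h1 : h p = (∑ C ∈ T, c C * (n C p : ℝ)) * (p : ℝ) ^ (-s) := by
        simp only [hh, if_pos hpp, Finset.sum_mul, mul_assoc]
      rw [h1, hQ p hpp hp]
      unfold pterm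
      by_cases hq : Q p
      · simp [hpp, hq]
      · simp [hq]
    · simp [hh, pterm, hpp]
  have hsum_d : HasSum (fun p => pterm Q (fun _ => 1) s p - h p)
      (∑ p ∈ Bad, (pterm Q (fun _ => 1) s p - h p)) :=
    hasSum_sum_of_ne_finset_zero hagree
  have hsum_f : HasSum (pterm Q (fun _ => 1) s)
      (∑ p ∈ Bad, (pterm Q (fun _ => 1) s p - h p) + ∑ C ∈ T, c C * P C s) := by
    have := hsum_d.add hsum_h
    simpa using this
  have hps : psum Q (fun _ => 1) s =
      ∑ p ∈ Bad, (pterm Q (fun _ => 1) s p - h p) + ∑ C ∈ T, c C * P C s := hsum_f.tsum_eq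
  have e1 : psum Q (fun _ => 1) s - (∑ C ∈ T, c C) * lg s =
      ∑ C ∈ T, c C * (P C s - Fermat.Agent.FD.lg s) +
        ∑ p ∈ Bad, (pterm Q (fun _ => 1) s p - h p) := by
    rw [hps, Main_lg_eq, Finset.sum_mul]
    simp only [mul_sub, Finset.sum_sub_distrib]
    ring
  rw [e1]
  refine (abs_add_le _ _).trans (add_le_add ?_ ?_)
  · refine (Finset.abs_sum_le_sum_abs _ _).trans (Finset.sum_le_sum fun C _ => ?_)
    rw [abs_mul]
    exact mul_le_mul_of_nonneg_left (hK C s hs hs2) (abs_nonneg _)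
  · refine (Finset.abs_sum_le_sum_abs _ _).trans (Finset.sum_le_sum fun p _ => ?_)
    refine (abs_sub _ _).trans (add_le_add ?_ ?_)
    · unfold pterm
      split_ifs with hq
      · rw [one_mul, abs_of_nonneg (hnn p)]
        exact hle1 p hq.1
      · simp
    · refine (Finset.abs_sum_le_sum_abs _ _).trans (Finset.sum_le_sum fun C _ => ?_)
      rw [abs_mul]
      refine mul_le_mul_of_nonneg_left ?_ (abs_nonneg _)
      split_ifs with hpp
      · rw [abs_of_nonneg (mul_nonneg (Nat.cast_nonneg _) (hnn p))]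
        exact mul_le_of_le_one_right (Nat.cast_nonneg _) (hle1 p hpp)
      · simp

/-- **(I5) = FDd.**  `r : G_ℚ ↠ G` of finite level, unramified outside the finite set `S`, `D ⊆ G` a union
of divisions.  The primes `p ∉ S` whose Frobenius elements are mapped into `D` have Dirichlet density
`|D| / |G|`, with error term `O(1)`. -/
theorem frobeniusDensity {G : Type} [Group G] [Finite G] (r : GQ →* G)
    (hr : Function.Surjective r) (hlev : GaloisFactorsThroughFiniteLevel r) (S : Finset ℕ)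
    (hunr : ∀ p : ℕ, p.Prime → p ∉ S → ∀ A : ValuationSubring Qb, A.LiesOverPrime p →
      ∀ σ ∈ A.inertiaSubgroupIn ℚ, r σ = 1)
    (D : Set G) (hD : IsDivStable D) :
    ∃ C : ℝ, ∀ s : ℝ, 1 < s → s ≤ 2 →
      |psum (fun p => p ∉ S ∧ FrobIn r D p) (fun _ => 1) s
        - (Nat.card D : ℝ) / Nat.card G * lg s| ≤ C := by
  classical
  obtain ⟨T, c, hc⟩ := exists_coeff _ (Main_isDivInv D hD)
  have hsum := sum_coeff_eq D T c hc
  choose n P B hP hS hB using exists_pack r hr hlev
  rw [← hsum]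
  refine Main_analytic T c n P hP hS (S ∪ T.biUnion B) _ (fun p hp hpB => ?_)
  have hpS : p ∉ S := fun h => hpB (Finset.mem_union_left _ h)
  have hpT : ∀ C ∈ T, p ∉ B C := fun C hC h =>
    hpB (Finset.mem_union_right _ (Finset.mem_biUnion.2 ⟨C, hC, h⟩))
  have key : ∀ (A : ValuationSubring Qb) (φ : GQ), A.LiesOverPrime p → A.IsFrobeniusAt φ p →
      (∑ C ∈ T, c C * (n C p : ℝ)) = D.indicator (fun _ => (1 : ℝ)) (r φ) := by
    intro A φ hA hφ
    rw [hc]
    exact Finset.sum_congr rfl fun C hC => by rw [hB C p hp (hpT C hC) A φ hA hφ]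
  obtain ⟨A, hA, φ, hφ⟩ := Fermat.Agent.S54.exists_frob p hp
  by_cases hq : FrobIn r D p
  · obtain ⟨A', φ', hA', hφ', hmem⟩ := hq
    rw [key A' φ' hA' hφ', Set.indicator_of_mem hmem, if_pos ⟨hpS, A', φ', hA', hφ', hmem⟩]
  · have hmem : r φ ∉ D := fun h => hq ⟨A, φ, hA, hφ, h⟩
    rw [key A φ hA hφ, Set.indicator_of_notMem hmem, if_neg (fun h => hq h.2)]

end Fermat.Agent.S48.CH
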